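/-
S55 / `InvSpec` / GO4, leaf GO4-LD, sub-leaf LD-a (`LD.SingleOrbitSpec`): helper779.
Blueprint: `coord/S55-INV-GO4.md` §2; sub-interface `Inv/GO4/LDSpecH99.lean` (helper99).

Pure KC: `Ind_W ℚ̄_qˣ` is a weak class formation below `W` with orders `[W : V]` (`KC.All.indWCF`),
inflation is injective (`KC.All.qInf`), so `H²_lc` is a directed union of cyclic groups
`C_V ≅ ℤ/[W : V]`; an element killed by `p ∣ [W : N]` lies in `C_N`.
-/
import Fermat.Agent.S55.Inv.GO4.LDSpecH99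
import Fermat.Agent.S55.KC.All

set_option autoImplicit false
set_option linter.style.haveILetI false

noncomputable section

namespace Fermat.Agent.S55.Inv.GO4.H779

open groupCohomology Fermat.Agent.S55 Fermat.Agent.S55.PT Fermat.Agent.S55.Tow

/-- Two finite cyclic subgroups `C₁ ≤ C₂` of orders `n₁`, `n₂`: every element of `C₂` killed by
`n₁` lies in `C₁`. -/
lemma mem_of_nsmul_eq_zero_of_cyclic_le {X : Type*} [AddCommGroup X] {C₁ C₂ : AddSubgroup X}
    {n₁ n₂ : ℕ} (hn₁ : 0 < n₁) (hn₂ : 0 < n₂) (e₁ : C₁ ≃+ ZMod n₁) (e₂ : C₂ ≃+ ZMod n₂)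
    (hle : C₁ ≤ C₂) {x : X} (hx : x ∈ C₂) (hnx : n₁ • x = 0) : x ∈ C₁ := by
  classical
  haveI : NeZero n₁ := ⟨hn₁.ne'⟩
  haveI : NeZero n₂ := ⟨hn₂.ne'⟩
  letI : Fintype C₁ := Fintype.ofEquiv (ZMod n₁) e₁.symm.toEquiv
  let f : C₁ → ZMod n₂ := fun y => e₂ ⟨y.1, hle y.2⟩
  have hf : Function.Injective f := by
    intro y y' h
    have h1 := e₂.injective h
    exact Subtype.ext (congrArg (fun z : C₂ => (z : X)) h1)
  have hT : (Finset.univ.filter (fun a : ZMod n₂ => n₁ • a = 0)).card ≤ n₁ :=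
    IsAddCyclic.card_nsmul_eq_zero_le hn₁
  have hcard : (Finset.univ.image f).card = n₁ := by
    rw [Finset.card_image_of_injective _ hf, Finset.card_univ, Fintype.card_congr e₁.toEquiv,
      ZMod.card]
  have hsub : Finset.univ.image f ⊆ Finset.univ.filter (fun a : ZMod n₂ => n₁ • a = 0) := by
    intro a ha
    obtain ⟨y, -, rfl⟩ := Finset.mem_image.1 ha
    rw [Finset.mem_filter]
    refine ⟨Finset.mem_univ _, ?_⟩
    have h1 : n₁ • y = 0 := by
      apply e₁.injective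
      rw [map_nsmul, map_zero, nsmul_eq_mul, ZMod.natCast_self, zero_mul]
    have h2 : n₁ • (⟨y.1, hle y.2⟩ : C₂) = 0 := by
      apply Subtype.ext
      have := congrArg (fun z : C₁ => (z : X)) h1
      simpa using this
    show n₁ • e₂ ⟨y.1, hle y.2⟩ = 0
    rw [← map_nsmul, h2, map_zero]
  have hEq := Finset.eq_of_subset_of_card_le hsub (by rw [hcard]; exact hT)
  have hxT : e₂ ⟨x, hx⟩ ∈ Finset.univ.filter (fun a : ZMod n₂ => n₁ • a = 0) := by
    rw [Finset.mem_filter]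
    refine ⟨Finset.mem_univ _, ?_⟩
    rw [← map_nsmul]
    have : n₁ • (⟨x, hx⟩ : C₂) = 0 := Subtype.ext (by simpa using hnx)
    rw [this, map_zero]
  rw [← hEq] at hxT
  obtain ⟨y, -, hy⟩ := Finset.mem_image.1 hxT
  have h1 := e₂.injective hy
  have h2 : y.1 = x := congrArg (fun z : C₂ => (z : X)) h1
  rw [← h2]
  exact y.2

/-- the two names of `ℚ̄_qˣ` agree -/
lemma unitsA_eq_unitsQpbar (q : Nat.Primes) : KC.unitsA q = Tow.unitsQpbar q := rfl

/-- **Abstract LD-a.**  In a weak class formation below `W` (smooth module, normal cofinal levels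
of finite index) a level-constant 2-cocycle whose class is killed by `p ∣ n(N)` is cohomologous to
a cocycle inflated from the normal level `N ≤ W`, and `p` times the latter is a coboundary at
level `N`. -/
theorem descendsTo_of_isWCF {G : Type} [Group G] (L : LevelSys G) (B : Rep.{0, 0, 0} ℤ G)
    (W : Subgroup G) (n : Subgroup G → ℕ) (hNC : L.NormalCofinal) (hFI : L.FiniteIndex)
    (hsm : L.IsSmooth B) (hWCF : KC.IsWCF L B W n)
    (N : Subgroup G) (hN : N ∈ L.levels) (hNn : N.Normal) (hNW : N ≤ W) (p : ℕ) (hp : p ∣ n N)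
    (X : G × G → B) (hX : X ∈ L.Z2 B) (hpX : p • X ∈ L.B2 B) :
    LD.DescendsTo L B N p X := by
  have hcyc : ∀ V : Subgroup G, V ∈ L.levels → V.Normal → V ≤ W →
      0 < n V ∧ Nonempty (KC.H2At V B ≃+ ZMod (n V)) := by
    intro V hV hVn hle
    haveI := hVn
    exact ⟨hWCF.npos V hV hle, ⟨(KC.All.q2 G B V).some.trans (hWCF.h2 V hV hle).some⟩⟩
  have hinf : ∀ V' V : Subgroup G, V' ∈ L.levels → V'.Normal → V ∈ L.levels → V.Normal →
      V' ≤ V → V ≤ W → ∀ f ∈ KC.Z2At V B, KC.IsCobAt₂ V' B f → KC.IsCobAt₂ V B f := by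
    intro V' V hV' hV'n hV hVn hle hle0 f hf hc
    haveI := hV'n
    haveI := hVn
    exact KC.All.qInf G B V' V hle (hWCF.h1rel V' V hV' hV hle hle0) f hf hc
  -- `X` lives at a normal level `V ≤ N`
  obtain ⟨V, hV, hVn, hVN, hXV⟩ := KC.H287.exists_mem_Z2At L hNC B X hX N hN
  have hVW : V ≤ W := hVN.trans hNW
  obtain ⟨hnV, ⟨eV⟩⟩ := hcyc V hV hVn hVW
  obtain ⟨hnN, ⟨eN⟩⟩ := hcyc N hN hNn hNW
  have hinjV := KC.H287.psi_injective hNC hFI hsm W hinf V hV hVn hVW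
  have hinjN := KC.H287.psi_injective hNC hFI hsm W hinf N hN hNn hNW
  let e₂ : (KC.H287.psi L B V hV).range ≃+ ZMod (n V) :=
    (AddMonoidHom.ofInjective hinjV).symm.trans eV
  let e₁ : (KC.H287.psi L B N hN).range ≃+ ZMod (n N) :=
    (AddMonoidHom.ofInjective hinjN).symm.trans eN
  have hle : (KC.H287.psi L B N hN).range ≤ (KC.H287.psi L B V hV).range :=
    KC.H287.range_psi_mono hN hV hVN
  -- the class of `X`
  have hx2 : L.H2π B ⟨X, hX⟩ ∈ (KC.H287.psi L B V hV).range :=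
    ⟨QuotientAddGroup.mk ⟨X, hXV⟩, rfl⟩
  have hpx : p • L.H2π B ⟨X, hX⟩ = 0 := by
    rw [← map_nsmul, L.H2π_eq_zero_iff]
    exact hpX
  have hnx : n N • L.H2π B ⟨X, hX⟩ = 0 := by
    obtain ⟨m, hm⟩ := hp
    rw [hm, mul_comm, mul_smul, hpx, smul_zero]
  have hx1 := mem_of_nsmul_eq_zero_of_cyclic_le hnN hnV e₁ e₂ hle hx2 hnx
  obtain ⟨y, hy⟩ := hx1
  obtain ⟨X', rfl⟩ := QuotientAddGroup.mk_surjective y
  have hX'Z : (X' : G × G → B) ∈ L.Z2 B := KC.H287.mem_Z2_of_mem_Z2At hN X'.2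
  have hdiff : X - (X' : G × G → B) ∈ L.B2 B := by
    have h0 : L.H2π B (⟨X, hX⟩ - ⟨X'.1, hX'Z⟩) = 0 := by
      rw [map_sub, sub_eq_zero]
      exact hy.symm
    exact (L.H2π_eq_zero_iff B _).1 h0
  refine ⟨X'.1, X'.2, ?_, hdiff⟩
  have hpX'Z : p • (X' : G × G → B) ∈ KC.Z2At N B := (KC.Z2At N B).nsmul_mem X'.2 p
  have hpX'B : p • (X' : G × G → B) ∈ L.B2 B := by
    have h1 : p • (X' : G × G → B) = p • X - p • (X - (X' : G × G → B)) := by
      rw [smul_sub, sub_sub_cancel]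
    rw [h1]
    exact (L.B2 B).sub_mem hpX ((L.B2 B).toAddSubgroup.nsmul_mem hdiff p)
  exact KC.H287.isCobAt₂_of_mem_B2 L hNC hFI B hsm W hinf N hN hNn hNW _ hpX'Z hpX'B

/-- `Ind_W ℚ̄_qˣ` is smooth. -/
lemma indR_unitsQpbar_isSmooth (q : Nat.Primes) (W : Subgroup (Gl q))
    (hW : W ∈ (localLevels q).levels) :
    (localLevels q).IsSmooth (KC.indR W (Tow.unitsQpbar q)) := by
  haveI : Fact (Nat.Prime 2) := ⟨Nat.prime_two⟩
  obtain ⟨hNC, -⟩ := KC.All.localLevels q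
  obtain ⟨hsm, hdiv, ι, hι⟩ := KC.All.localKummerEmb 2 q
  exact (KC.All.indKummer (Gl q) (localLevels q) 2 (muLoc 2 q) (KC.unitsA q) ι W hNC
    ⟨W, hW, le_rfl⟩ hsm hdiv hι).1

/-- **LD-a** (`LD.SingleOrbitSpec`). -/
theorem singleOrbit (p : ℕ) : LD.SingleOrbitSpec p := by
  intro q W N hW _ hN hNn hNW hp X hX hpX
  obtain ⟨hNC, hFI⟩ := KC.All.localLevels q
  have hWCF : KC.IsWCF (localLevels q) (KC.indR W (Tow.unitsQpbar q)) W
      (fun V => V.relIndex W) :=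
    KC.All.indWCF (Gl q) (localLevels q) (KC.unitsA q) W W hFI (KC.All.localClassFormation q) hW
      le_rfl
  exact descendsTo_of_isWCF (localLevels q) (KC.indR W (Tow.unitsQpbar q)) W
    (fun V => V.relIndex W) hNC hFI (indR_unitsQpbar_isSmooth q W hW) hWCF N hN hNn hNW p hp
    X hX hpX

end Fermat.Agent.S55.Inv.GO4.H779

end
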